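import Fermat.Agent.S15.P.Defs
import Fermat.Agent.S15.W.Interface
import Fermat.Agent.S37.DivA
import Fermat.Agent.S17.Curve.Base

/-!
# S15 / P / Lift : the classes `[σ g / g] ∈ Kum L e` lift to classes of the same shape in `Kum L (e * e ^ k)`

`exists_lift`.  Let `σ g / g ∈ Dm L e`, `s` the action of `σ` on places.  Then `e ∣ ord_{s⁻¹ P} g - ord_P g` for all `P`
(`ES.ord_galF`).  Write `ord_P g = e Y(P) + r(P)`, `Y = W.Dv Qb e g` (`Dv_apply : Y P = ord_P g / e`), `r(P) = ord_P g % e`;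
so `r (s⁻¹ P) = r P`.  `d := deg Y`, `E := Y - d • ∞` (`∞ = S17.infP Qb L`, of degree one: `S26.deg_eq_one_of_isAlgClosed`)
has degree `0`; `S37.exists_eq_nsmul_add_div (e ^ k)` : `E P = e ^ k * E' P + ord_P φ`.  `g₁ := g / φ ^ e`:
`ord_P g₁ = r P + e d [P = ∞] + e ^ (k+1) E' P`, and `s ∞ = ∞` (`S17.gal_smul_infP`), hence
`ord_P (σ g₁ / g₁) = ord_{s⁻¹ P} g₁ - ord_P g₁ = e ^ (k+1) (E' (s⁻¹ P) - E' P)`.
-/

set_option autoImplicit false

open AlgebraicCurve ModularCurve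

namespace Fermat.Agent.S15.P

open Fermat.Agent.ES Fermat.Agent.SS

variable {L e : ℕ}

/-- the order of `σ g / g`. -/
theorem ord_dq (σ : GQ) (g : (FF L)ˣ) (P : Place Qb (FF L)) :
    P.ord ((dq L σ g : (FF L)ˣ) : FF L)
      = ((arithmeticGalois (modularFunctionFieldFull L) σ)⁻¹ • P).ord (g : FF L) - P.ord (g : FF L) := by
  have h0 : galF L σ (g : FF L) ≠ 0 := by
    rw [Ne, map_eq_zero]
    exact g.ne_zero
  rw [coe_dq, P.ord_mul h0 (inv_ne_zero g.ne_zero), P.ord_inv]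
  have h := ord_galF L σ ((arithmeticGalois (modularFunctionFieldFull L) σ)⁻¹ • P) (g : FF L)
  rw [smul_inv_smul] at h
  rw [h]
  ring

variable [NeZero L]

theorem exists_lift (he : 0 < e) (k : ℕ) (σ : GQ) (g : (FF L)ˣ) (h : dq L σ g ∈ Dm L e) :
    ∃ g₁ φ : (FF L)ˣ, g = g₁ * φ ^ e ∧ dq L σ g₁ ∈ Dm L (e * e ^ k) := by
  classical
  obtain ⟨s, hs⟩ : ∃ s, s = arithmeticGalois (modularFunctionFieldFull L) σ := ⟨_, rfl⟩
  obtain ⟨oo, hoo⟩ : ∃ oo : Place Qb (FF L), oo = S17.infP Qb L := ⟨_, rfl⟩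
  have hsoo : s • oo = oo := by
    rw [hs, hoo]
    exact S17.gal_smul_infP σ
  obtain ⟨Y, hY⟩ : ∃ Y : Divisor Qb (FF L), Y = W.Dv Qb e (g : FF L) := ⟨_, rfl⟩
  obtain ⟨d, hd⟩ : ∃ d : ℤ, d = Divisor.degree Y := ⟨_, rfl⟩
  have hdeg : Divisor.degree (Y - Finsupp.single oo d) = 0 := by
    rw [map_sub, Divisor.degree_single, S26.deg_eq_one_of_isAlgClosed, ← hd]
    simp
  obtain ⟨E', φ, hφ, hE⟩ := S37.exists_eq_nsmul_add_div (e ^ k) (pow_pos he k)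
    ⟨Y - Finsupp.single oo d, hdeg⟩
  refine ⟨g * (Units.mk0 φ hφ ^ e)⁻¹, Units.mk0 φ hφ, by simp, ?_⟩
  have hord : ∀ P : Place Qb (FF L), P.ord ((g * (Units.mk0 φ hφ ^ e)⁻¹ : (FF L)ˣ) : FF L)
      = P.ord (g : FF L) % (e : ℤ) + e * (Finsupp.single oo d P)
        + (e * e ^ k : ℕ) * (E' : Divisor Qb (FF L)) P := by
    intro P
    have h1 := hE P
    have h1' : Y P - Finsupp.single oo d P
        = ((e ^ k : ℕ) : ℤ) * (E' : Divisor Qb (FF L)) P + P.ord φ := h1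
    rw [hY, W.Dv_apply] at h1'
    have h2 : (e : ℤ) * (P.ord (g : FF L) / (e : ℤ)) + P.ord (g : FF L) % (e : ℤ) = P.ord (g : FF L) :=
      Int.mul_ediv_add_emod _ _
    have h3 : ((g * (Units.mk0 φ hφ ^ e)⁻¹ : (FF L)ˣ) : FF L) = (g : FF L) * (φ ^ (e : ℤ))⁻¹ := by
      simp
    rw [h3, P.ord_mul g.ne_zero (inv_ne_zero (zpow_ne_zero _ hφ)), P.ord_inv, P.ord_zpow]
    push_cast at h1' ⊢
    linear_combination (-1 : ℤ) * h2 + (e : ℤ) * h1'
  intro P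
  rw [ord_dq, ← hs, hord, hord]
  have hr : (s⁻¹ • P).ord (g : FF L) % (e : ℤ) = P.ord (g : FF L) % (e : ℤ) := by
    have h4 := h P
    rw [ord_dq, ← hs] at h4
    exact (Int.emod_emod_of_dvd _ (dvd_refl _)).symm.trans
      ((Int.emod_emod_of_dvd _ (dvd_refl _)).trans (Int.ModEq.symm ((Int.modEq_iff_dvd).mpr h4)))
  have hsingle : Finsupp.single oo d (s⁻¹ • P) = Finsupp.single oo d P := by
    by_cases hP : P = oo
    · rw [hP]
      congr 1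
      rw [inv_smul_eq_iff, hsoo]
    · rw [Finsupp.single_apply, Finsupp.single_apply, if_neg (Ne.symm hP), if_neg]
      intro h5
      apply hP
      rw [eq_inv_smul_iff, hsoo] at h5
      exact h5.symm
  rw [hr, hsingle]
  exact ⟨(E' : Divisor Qb (FF L)) (s⁻¹ • P) - (E' : Divisor Qb (FF L)) P, by ring⟩

/-- every generator of `VP L e A` is the image of a generator at level `e * e ^ k`. -/
theorem exists_gens_lift (he : 0 < e) (k : ℕ) (A : ValuationSubring Qb) {x : Kum L e}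
    (hx : x ∈ gens L e A) :
    ∃ y ∈ gens L (e * e ^ k) A, Kum.trans L (dvd_mul_right e (e ^ k)) y = x := by
  obtain ⟨σ, hσ, g, h, rfl⟩ := hx
  obtain ⟨g₁, φ, rfl, h₁⟩ := exists_lift he k σ g h
  refine ⟨_, ⟨σ, hσ, g₁, h₁, rfl⟩, ?_⟩
  rw [Kum.trans_mk, Kum.mk_eq_mk_iff]
  refine ⟨(dq L σ φ)⁻¹, ?_⟩
  show _ = dq L σ g₁ * (dq L σ (g₁ * φ ^ e))⁻¹
  rw [dq_mul, dq_pow, mul_inv, mul_inv_cancel_left, inv_pow]

end Fermat.Agent.S15.P
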