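import Fermat.Agent.S15.P.Frob
import Fermat.Agent.S15.P.Lift
import Fermat.Agent.SS.GM2.Main
import Fermat.Agent.S54.Frobenius

/-!
# S15 / P / Main : `VP L e A` is isotropic for the Weil pairing (`A ∣ q`, `q ∥ L`, `e ≠ q` prime)

For generators `x, y` of `VP`: lift them to generators `x', y'` at level `m = e * e ^ k`, `k = q ^ 2` (`exists_gens_lift`).
`φ² x' = q² x'`, `φ² y' = q² y'` (`frob_sq_gens`), so `z = e_m (x', y')` satisfies
`z ^ (q⁴) = e_m (φ² x', φ² y') = φ² z = z ^ (q²)`, `z ^ m = 1`; the order of `z` is a power of `e` dividing `q² - 1 < m`,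
so it divides `e ^ k`, and `e_e (x, y) = z ^ (e ^ k) = 1` (`W.e1N_trans`).
-/

set_option autoImplicit false

open AlgebraicCurve ModularCurve

namespace Fermat.Agent.S15.P

open Fermat.Agent.ES Fermat.Agent.SS Fermat.Agent.S15.W

/-- elementary. -/
theorem pow_eq_one_of_frob {e q k : ℕ} (he : e.Prime) (hq : q.Prime) (heq : e ≠ q) (hk : q ^ 2 < e * e ^ k)
    {z : Qb} (hz : z ≠ 0) (h1 : z ^ (e * e ^ k) = 1) (h2 : z ^ (q ^ 2 * q ^ 2) = z ^ (q ^ 2)) :
    z ^ (e ^ k) = 1 := by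
  have hq4 : 4 ≤ q ^ 2 := by
    have := hq.two_le
    nlinarith
  have h3 : z ^ (q ^ 2 * (q ^ 2 - 1)) = 1 := by
    have e1 : q ^ 2 * q ^ 2 = q ^ 2 * (q ^ 2 - 1) + q ^ 2 := by
      obtain ⟨t, ht⟩ : ∃ t, q ^ 2 = t + 1 := ⟨q ^ 2 - 1, by omega⟩
      rw [ht, Nat.add_sub_cancel]
      ring
    rw [e1, pow_add] at h2
    exact mul_right_cancel₀ (pow_ne_zero _ hz) (by rw [h2, one_mul])
  have hd1 : orderOf z ∣ e ^ (k + 1) := by
    rw [pow_succ']
    exact orderOf_dvd_of_pow_eq_one h1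
  obtain ⟨j, hj, hjo⟩ := (Nat.dvd_prime_pow he).mp hd1
  have hd2 : orderOf z ∣ q ^ 2 * (q ^ 2 - 1) := orderOf_dvd_of_pow_eq_one h3
  have hcop : Nat.Coprime (orderOf z) (q ^ 2) := by
    rw [hjo]
    exact Nat.Coprime.pow _ _ ((Nat.coprime_primes he hq).mpr heq)
  have hd3 : orderOf z ∣ q ^ 2 - 1 := hcop.dvd_of_dvd_mul_left hd2
  have hle : orderOf z ≤ q ^ 2 - 1 := Nat.le_of_dvd (by omega) hd3
  have hjk : j ≤ k := by
    by_contra hcon
    have hj' : j = k + 1 := by omega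
    rw [hjo, hj', pow_succ'] at hle
    omega
  rw [← orderOf_dvd_iff_pow_eq_one, hjo]
  exact pow_dvd_pow e hjk

theorem e1N_pow_of_frob {L m n : ℕ} [NeZero L] (hm : m ≠ 0) (φ : GQ)
    (hφ : ∀ ζ : Qb, ζ ^ m = 1 → (φ * φ) ζ = ζ ^ n) (x y : Kum L m)
    (hx : galKum L m φ (galKum L m φ x) = n • x) (hy : galKum L m φ (galKum L m φ y) = n • y) :
    e1N x y ^ (n * n) = e1N x y ^ n := by
  have h := e1N_gal_pow hm (φ * φ) hφ x y
  rw [galKum_mul, galKum_mul, hx, hy] at h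
  have h' : e1N (n • x) (n • y) = (e1N x y ^ n) ^ n := by
    show e1K (toB1 L m (n • x)) (toB1 L m (n • y)) = _
    rw [map_nsmul, map_nsmul, e1K_nsmul_left hm, e1K_nsmul_right hm]
    rfl
  rw [pow_mul, ← h', h]

variable {M q e : ℕ} [NeZero M] [NeZero q]

theorem e1N_gens (hq : q.Prime) (hqM : ¬ q ∣ M) (he : e.Prime) (heq : e ≠ q)
    (A : ValuationSubring Qb) (hA : A.LiesOverPrime q) {x y : Kum (M * q) e}
    (hx : x ∈ gens (M * q) e A) (hy : y ∈ gens (M * q) e A) : e1N x y = 1 := by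
  obtain ⟨k, hkdef⟩ : ∃ k, k = q ^ 2 := ⟨_, rfl⟩
  have hk : q ^ 2 < e * e ^ k := by
    calc q ^ 2 < 2 ^ (q ^ 2) := Nat.lt_two_pow_self
      _ ≤ e ^ (q ^ 2) := Nat.pow_le_pow_left he.two_le _
      _ = e ^ k := by rw [hkdef]
      _ ≤ e * e ^ k := Nat.le_mul_of_pos_left _ he.pos
  have hqm : ¬ q ∣ e * e ^ k := by
    rw [← pow_succ']
    intro h
    exact heq ((Nat.prime_dvd_prime_iff_eq hq he).mp (hq.dvd_of_dvd_pow h)).symm
  have hm : e * e ^ k ≠ 0 := Nat.mul_ne_zero he.ne_zero (pow_ne_zero _ he.ne_zero)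
  have hc := SS.GM2.crux2 M q (e * e ^ k) hq hqM hqm
  obtain ⟨φ, hφ⟩ := S54.exists_isFrobeniusAt q hq A hA
  obtain ⟨x', hx', rfl⟩ := exists_gens_lift he.pos k A hx
  obtain ⟨y', hy', rfl⟩ := exists_gens_lift he.pos k A hy
  rw [e1N_trans hm]
  refine pow_eq_one_of_frob he hq heq hk (e1N_ne_zero hm _ _) (e1N_pow hm _ _) ?_
  refine e1N_pow_of_frob hm φ (fun ζ hζ => ?_) x' y' (frob_sq_gens hq hqM hqm hc A hA φ hφ hx')
    (frob_sq_gens hq hqM hqm hc A hA φ hφ hy')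
  have := S31.frob_pow_apply_root A hq hA φ hφ hqm hζ 2
  rwa [pow_two] at this

theorem e1N_zero_left' {L e : ℕ} [NeZero L] (he : e ≠ 0) (b : Kum L e) : e1N 0 b = 1 := by
  have h := e1N_add_left he 0 0 b
  rw [add_zero] at h
  exact (mul_eq_left₀ (e1N_ne_zero he 0 b)).mp h.symm

theorem e1N_zero_right' {L e : ℕ} [NeZero L] (he : e ≠ 0) (a : Kum L e) : e1N a 0 = 1 := by
  have h := e1N_add_right he a 0 0
  rw [add_zero] at h
  exact (mul_eq_left₀ (e1N_ne_zero he a 0)).mp h.symm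

theorem e1N_neg_left' {L e : ℕ} [NeZero L] (he : e ≠ 0) {a b : Kum L e} (h : e1N a b = 1) :
    e1N (-a) b = 1 := by
  have h1 := e1N_add_left he (-a) a b
  rw [neg_add_cancel, e1N_zero_left' he, h, mul_one] at h1
  exact h1.symm

theorem e1N_neg_right' {L e : ℕ} [NeZero L] (he : e ≠ 0) {a b : Kum L e} (h : e1N a b = 1) :
    e1N a (-b) = 1 := by
  have h1 := e1N_add_right he a (-b) b
  rw [neg_add_cancel, e1N_zero_right' he, h, mul_one] at h1
  exact h1.symm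

theorem e1N_eq_one_of_closure {L e : ℕ} [NeZero L] (he : e ≠ 0) (S : Set (Kum L e))
    (h : ∀ x ∈ S, ∀ y ∈ S, e1N x y = 1) :
    ∀ a ∈ AddSubgroup.closure S, ∀ b ∈ AddSubgroup.closure S, e1N a b = 1 := by
  have h1 : ∀ x ∈ S, ∀ b ∈ AddSubgroup.closure S, e1N x b = 1 := by
    intro x hx b hb
    induction hb using AddSubgroup.closure_induction with
    | mem y hy => exact h x hx y hy
    | zero => exact e1N_zero_right' he x
    | add y y' _ _ ih ih' => rw [e1N_add_right he, ih, ih', one_mul]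
    | neg y _ ih => exact e1N_neg_right' he ih
  intro a ha b hb
  induction ha using AddSubgroup.closure_induction with
  | mem x hx => exact h1 x hx b hb
  | zero => exact e1N_zero_left' he b
  | add y y' _ _ ih ih' => rw [e1N_add_left he, ih, ih', one_mul]
  | neg y _ ih => exact e1N_neg_left' he ih

/-- **`VP` is isotropic** (level `M * q`). -/
theorem VP_isotropic_mul (hq : q.Prime) (hqM : ¬ q ∣ M) (he : e.Prime) (heq : e ≠ q)
    (A : ValuationSubring Qb) (hA : A.LiesOverPrime q) :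
    ∀ a ∈ VP (M * q) e A, ∀ b ∈ VP (M * q) e A, e1N a b = 1 :=
  e1N_eq_one_of_closure he.ne_zero _ fun _ hx _ hy => e1N_gens hq hqM he heq A hA hx hy

/-- **EXPORT of Part P.**  Prime level `p`, `A ∣ p`, `e ≠ p` prime: the subgroup `VP p e A` of `Kum p e = J₀(p)[e]`
generated by all `[σ g / g]` (`σ ∈ I_A`, `g ∈ F_p^×` with `σ g / g ∈ Dm p e`) is isotropic for the Weil pairing. -/
theorem VP_isotropic {p e : ℕ} [NeZero p] (hp : p.Prime) (he : e.Prime) (hep : e ≠ p)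
    (A : ValuationSubring Qb) (hA : A.LiesOverPrime p) :
    ∀ a ∈ VP p e A, ∀ b ∈ VP p e A, e1N a b = 1 := by
  have key : ∀ (L : ℕ) (_ : L = 1 * p) [NeZero L], ∀ a ∈ VP L e A, ∀ b ∈ VP L e A, e1N a b = 1 := by
    intro L hL
    subst hL
    intro _
    exact VP_isotropic_mul hp (fun h => hp.one_lt.ne' (Nat.dvd_one.mp h)) he hep A hA
  exact key p (one_mul p).symm

end Fermat.Agent.S15.P
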