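import Fermat.Agent.SS.Formal.Core35
import Fermat.Agent.ES.B.Trans

/-!
# S15 / Part P (the prime `q` dividing the level exactly once; for S15: `q = p`, the level) : definitions

Level `L` (`L = M * q`, `q ∤ M`), `A` a valuation ring of `ℚ̄` over `q`, `e ≠ q` a prime.

* `dq L σ g = σ g / g`;
* `gens L e A`  : the classes `[σ g / g] ∈ Kum L e`, `σ ∈ I_A`, `g ∈ F_L^×` ARBITRARY with `σ g / g ∈ Dm L e`.
                  These are (a) the coboundaries `(σ - 1) [f]`, `f ∈ Dm L e`, and (b) the Kummer cocycles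
                  `c_y (σ) = σ y' - y'`, `e y' = y`, `y` fixed by `σ` (`div g = e Y' - Y`);
* `VP L e A`    : the subgroup generated by `gens L e A` (`= TT` of Part D);
* `IsWeil L m E`: the formal properties of the Weil pairing `e_m` on `Kum L m` used here.

Main result (`Main.lean`): `VP` is isotropic for `e_1`.
-/

set_option autoImplicit false

open AlgebraicCurve ModularCurve

namespace Fermat.Agent.S15.P

open Fermat.Agent.ES Fermat.Agent.SS

noncomputable section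

/-- `σ g / g`. -/
def dq (L : ℕ) (σ : GQ) (g : (FF L)ˣ) : (FF L)ˣ := galU L σ g * g⁻¹

theorem coe_dq (L : ℕ) (σ : GQ) (g : (FF L)ˣ) :
    ((dq L σ g : (FF L)ˣ) : FF L) = galF L σ (g : FF L) * (g : FF L)⁻¹ := by
  rw [dq, Units.val_mul, Units.val_inv_eq_inv_val, coe_galU]

theorem dq_mul (L : ℕ) (σ : GQ) (g h : (FF L)ˣ) : dq L σ (g * h) = dq L σ g * dq L σ h := by
  unfold dq
  rw [map_mul, mul_inv]
  exact mul_mul_mul_comm _ _ _ _

theorem dq_pow (L : ℕ) (σ : GQ) (g : (FF L)ˣ) (n : ℕ) : dq L σ (g ^ n) = dq L σ g ^ n := by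
  unfold dq
  rw [map_pow, mul_pow, inv_pow]

/-- the classes `[σ g / g]`, `σ` in the inertia group of `A`. -/
def gens (L e : ℕ) (A : ValuationSubring Qb) : Set (Kum L e) :=
  {x | ∃ σ ∈ A.inertiaSubgroupIn ℚ, ∃ (g : (FF L)ˣ) (h : dq L σ g ∈ Dm L e), x = Kum.mk ⟨dq L σ g, h⟩}

/-- `V_q = TT`. -/
def VP (L e : ℕ) (A : ValuationSubring Qb) : AddSubgroup (Kum L e) := AddSubgroup.closure (gens L e A)

theorem mk_dq_mem_VP {L e : ℕ} {A : ValuationSubring Qb} {σ : GQ} (hσ : σ ∈ A.inertiaSubgroupIn ℚ)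
    (g : (FF L)ˣ) (h : dq L σ g ∈ Dm L e) : Kum.mk ⟨dq L σ g, h⟩ ∈ VP L e A :=
  AddSubgroup.subset_closure ⟨σ, hσ, g, h, rfl⟩

/-- coboundaries lie in `VP`. -/
theorem galKum_sub_mem_VP {L e : ℕ} {A : ValuationSubring Qb} {σ : GQ}
    (hσ : σ ∈ A.inertiaSubgroupIn ℚ) (x : Kum L e) : galKum L e σ x - x ∈ VP L e A := by
  obtain ⟨f, rfl⟩ := Kum.mk_surjective x
  have h : dq L σ (f : (FF L)ˣ) ∈ Dm L e := (Dm L e).mul_mem (galU_mem_Dm σ f.2) ((Dm L e).inv_mem f.2)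
  have := mk_dq_mem_VP hσ (f : (FF L)ˣ) h
  rwa [show galKum L e σ (Kum.mk f) - Kum.mk f = Kum.mk ⟨dq L σ (f : (FF L)ˣ), h⟩ from by
    rw [galKum_mk, sub_eq_add_neg, ← Kum.mk_inv, ← Kum.mk_mul]; rfl]

/-- The formal properties of the Weil pairing on `Kum L m` used in Part P. -/
structure IsWeil (L m : ℕ) (E : Kum L m → Kum L m → Qb) : Prop where
  add_left : ∀ a a' b, E (a + a') b = E a b * E a' b
  add_right : ∀ a b b', E a (b + b') = E a b * E a b'
  pow_eq_one : ∀ a b, E a b ^ m = 1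
  gal : ∀ (σ : GQ) (a b : Kum L m), E (galKum L m σ a) (galKum L m σ b) = σ (E a b)

end

end Fermat.Agent.S15.P
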