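import Fermat.Agent.S15.P.Defs
import Fermat.Agent.SS.Formal.Core34

/-!
# S15 / P / Frob : `φ² = q²` on the classes `[σ g / g]`, `σ` in the inertia group at `q ∥ L`

`u = σ g / g` is constant modulo both Gauss valuations `v_∞` and `v_∞ ∘ w` (`SS.redConst_gal_div`, `w` commutes with
Galois), so `Crux2` applies to `τ = φ²`.
-/

set_option autoImplicit false

open AlgebraicCurve ModularCurve

namespace Fermat.Agent.S15.P

open Fermat.Agent.ES Fermat.Agent.SS

variable {M q m : ℕ} [NeZero M] [NeZero q]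

/-- `φ² = q²` on the generators. -/
theorem frob_sq_dq (hq : q.Prime) (hqM : ¬ q ∣ M) (hqm : ¬ q ∣ m) (hc : Crux2 M q m)
    (A : ValuationSubring Qb) (hA : A.LiesOverPrime q) (φ : GQ) (hφ : A.IsFrobeniusAt φ q)
    {σ : GQ} (hσ : σ ∈ A.inertiaSubgroupIn ℚ) (g : (FF (M * q))ˣ) (h : dq (M * q) σ g ∈ Dm (M * q) m) :
    galKum (M * q) m φ (galKum (M * q) m φ (Kum.mk ⟨dq (M * q) σ g, h⟩))
      = (q ^ 2) • Kum.mk ⟨dq (M * q) σ g, h⟩ := by
  have : NeZero (M * q) := ⟨Nat.mul_ne_zero (NeZero.ne M) (NeZero.ne q)⟩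
  obtain ⟨w, hw⟩ := exists_isAL M q hq hqM
  obtain ⟨s, rfl, hs⟩ := res_galA_of_inertia hσ
  obtain ⟨t, htφ, ht⟩ := res_galA_of_frobenius hq hA hφ
  have htk : ∀ x : kA A, t • x = x ^ q := by
    intro x
    obtain ⟨a, rfl⟩ := IsLocalRing.residue_surjective x
    have := congrArg (fun F : A →+* kA A => F a) ht
    rw [← IsLocalRing.ResidueField.residue_smul]
    exact this
  have key := hc A hA w hw (t * t)
    (fun x hx => by rw [mul_smul, htk, htk, ← pow_mul, ← pow_two, hx]) (q ^ 2)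
    (fun ζ hζ => by
      have := S31.frob_pow_apply_root A hq hA φ hφ hqm hζ 2
      rw [← this, pow_two, ← htφ]
      rfl) ⟨dq (M * q) (s : GQ) g, h⟩
    (by
      show RedConst A ((dq (M * q) (s : GQ) g : (FF (M * q))ˣ) : FF (M * q))
      rw [coe_dq]
      exact redConst_gal_div A s hs _ g.ne_zero)
    (by
      show RedConst A (w ((dq (M * q) (s : GQ) g : (FF (M * q))ˣ) : FF (M * q)))
      rw [coe_dq, map_mul, map_inv₀, ← hw.galF_comm hq]
      refine redConst_gal_div A s hs _ ?_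
      rw [Ne, map_eq_zero]; exact g.ne_zero)
  rw [← galKum_mul, ← key, ← htφ]
  rfl

theorem frob_sq_gens (hq : q.Prime) (hqM : ¬ q ∣ M) (hqm : ¬ q ∣ m) (hc : Crux2 M q m)
    (A : ValuationSubring Qb) (hA : A.LiesOverPrime q) (φ : GQ) (hφ : A.IsFrobeniusAt φ q)
    {x : Kum (M * q) m} (hx : x ∈ gens (M * q) m A) :
    galKum (M * q) m φ (galKum (M * q) m φ x) = (q ^ 2) • x := by
  obtain ⟨σ, hσ, g, h, rfl⟩ := hx
  exact frob_sq_dq hq hqM hqm hc A hA φ hφ hσ g h

end Fermat.Agent.S15.P
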